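import Fermat.Agent.ClassBound.Quotient
import Fermat.Agent.Root.SummaryDeuring
import Fermat.Agent.Root.SummaryRaynaudCriterion
import Fermat.Agent.Root.SummaryX0TwentySeven
import Fermat.Agent.Torsion.Order21
import Fermat.Agent.Torsion.ReductionDvd
import Fermat.Agent.Torsion.Summary

/-!
# A rational point beside a stable line

With a rational point of order `7` there is no stable line of order `3`: on the normal form
`b = d³ - d²`, `c = d² - d` the fibre product of `X₀(3)` and `X₀(7)` leaves no rational `d`. With a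
rational point of order `9` there is no independent one: it would give a cyclic isogeny of degree
`27`, so an integral invariant, so good reduction at `2` and at most five points there.
-/

set_option autoImplicit false
set_option linter.style.haveILetI false
set_option linter.unusedSectionVars false

noncomputable section

open WeierstrassCurve FA.KerPoly FA.ClassBound
open FA.Thirteen (tateCurve)
open FA.Frob (ratCurve)
open scoped WeierstrassCurve.Affine

local notation "Qb" => AlgebraicClosure ℚ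
local notation "GQ" => AlgebraicClosure ℚ ≃ₐ[ℚ] AlgebraicClosure ℚ

namespace FA.QuadTorsion

variable {E : WeierstrassCurve ℚ} [E.IsElliptic]

theorem toQb_order (R : E.toAffine.Point) : addOrderOf (FA.Torsion.toQb E R) = addOrderOf R :=
  addOrderOf_injective _ (FA.Torsion.toQb_injective E) R

theorem map_toQb (σ : GQ) (R : E.toAffine.Point) :
    Affine.Point.map (W' := E.toAffine) σ.toAlgHom (FA.Torsion.toQb E R) = FA.Torsion.toQb E R :=
  FA.Torsion.toQb_fixed E σ R

/-- **No stable line of order `3` beside a rational point of order `7`.** -/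
theorem false_seven_three {R : E.toAffine.Point} (hR : addOrderOf R = 7)
    (h3 : HasStableOrder E 3) : False := by
  have hne : ∀ k : ℕ, k ≠ 0 → k < 7 → k • R ≠ 0 := fun k hk hlt =>
    nsmul_ne_zero_of_lt_addOrderOf hk (hR.symm ▸ hlt)
  have h7 : 7 • R = 0 := hR ▸ addOrderOf_nsmul_eq_zero R
  obtain ⟨b, c, h0, hE, e, he, hjE⟩ :=
    FA.Torsion.exists_tate_j R (hne 2 (by norm_num) (by norm_num))
      (hne 3 (by norm_num) (by norm_num))
  obtain ⟨d, hd0, hd1, hb, hc⟩ := FA.Torsion.tate_order_seven (h0 := h0)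
    (fun h => hne 4 (by norm_num) (by norm_num) (by rw [← he, ← map_nsmul, h, map_zero]))
    (e.injective (by rw [map_nsmul, he, map_zero]; exact h7))
  obtain ⟨W, _, hW, hΔW, hj⟩ := FA.X0Composite.exists_model E
  obtain ⟨x, hx⟩ := FA.EC.exists_root_Ψ₃ _ (FA.X0Composite.not_irreducible hW Nat.prime_three h3)
  obtain ⟨s, hs, hsj⟩ := FA.EC.exists_param_three _ x hx
  rw [map_c₄, map_Δ, eq_intCast, eq_intCast] at hsj
  have hjs : E.j = (s + 27) * (s + 3) ^ 3 / s := by
    rw [hj, div_eq_div_iff hΔW hs]; linear_combination hsj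
  have hΔu : (tateCurve b c).Δ = d ^ 7 * (d - 1) ^ 7 * (d ^ 3 - 8 * d ^ 2 + 5 * d + 1) := by
    rw [FA.Thirteen.Δ_tateCurve, hb, hc]; ring
  have h4u : (tateCurve b c).c₄ = (d ^ 2 - d + 1) *
      (d ^ 6 - 11 * d ^ 5 + 30 * d ^ 4 - 15 * d ^ 3 - 10 * d ^ 2 + 5 * d + 1) := by
    simp [tateCurve, WeierstrassCurve.c₄, WeierstrassCurve.b₂, WeierstrassCurve.b₄, hb, hc]; ring
  have hΔ0 : (tateCurve b c).Δ ≠ 0 := (tateCurve b c).isUnit_Δ.ne_zero
  have hjd : E.j = (tateCurve b c).c₄ ^ 3 / (tateCurve b c).Δ := by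
    rw [← hjE, WeierstrassCurve.j, Units.val_inv_eq_inv_val, coe_Δ', div_eq_mul_inv, mul_comm]
  rw [hΔu] at hΔ0
  rw [h4u, hΔu, hjs, div_eq_div_iff hs hΔ0] at hjd
  obtain ⟨u, hu⟩ : ∃ u, u = d * (d - 1) := ⟨_, rfl⟩
  obtain ⟨f, hf⟩ : ∃ f, f = d ^ 3 - 8 * d ^ 2 + 5 * d + 1 := ⟨_, rfl⟩
  have hu0 : u ≠ 0 := hu ▸ mul_ne_zero hd0 (sub_ne_zero.2 hd1)
  have hf0 : f ≠ 0 := hf ▸ right_ne_zero_of_mul hΔ0
  have hfac : (f ^ 2 + 13 * f * u + 49 * u ^ 2) * (f ^ 2 + 5 * f * u + u ^ 2) ^ 3 =
      ((d ^ 2 - d + 1) *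
        (d ^ 6 - 11 * d ^ 5 + 30 * d ^ 4 - 15 * d ^ 3 - 10 * d ^ 2 + 5 * d + 1)) ^ 3 := by
    rw [hu, hf]; ring
  rw [← hfac, ← mul_pow, ← hu, ← hf] at hjd
  have hfib := FA.Torsion.X21.fibre_points (s := s) (t := f / u) (div_ne_zero hf0 hu0) (by
    refine mul_left_cancel₀ (pow_ne_zero 8 hu0) ?_
    field_simp
    linear_combination hjd)
  rcases hfib with h | h | h | h <;> rw [div_eq_iff hu0, hu, hf] at h
  · exact FA.Torsion.X21.cubic_ne_zero 5 (by decide) (c₃ := 2) (c₂ := 33) (c₁ := -39) (c₀ := 2)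
      (by decide) d (by push_cast; linear_combination 2 * h)
  · exact FA.Torsion.X21.cubic_ne_zero 2 (by decide) (c₃ := 1) (c₂ := 0) (c₁ := -3) (c₀ := 1)
      (by decide) d (by push_cast; linear_combination h)
  · exact FA.Torsion.X21.cubic_ne_zero 5 (by decide) (c₃ := 8) (c₂ := -15) (c₁ := -9) (c₀ := 8)
      (by decide) d (by push_cast; linear_combination 8 * h)
  · exact FA.Torsion.X21.cubic_ne_zero 2 (by decide) (c₃ := 1) (c₂ := -6) (c₁ := 3) (c₀ := 1)
      (by decide) d (by push_cast; linear_combination h)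

/-- A rational point of order `9` needs a pole of the invariant. -/
theorem false_nine_of_integral {R : E.toAffine.Point} (hR : addOrderOf R = 9) {z : ℤ}
    (hj : E.j = z) : False := by
  haveI : Fact (Nat.Prime 2) := ⟨Nat.prime_two⟩
  have hP : (3 ^ 2 : ℕ) • FA.Torsion.toQb E R = 0 := by
    rw [show (3 ^ 2 : ℕ) = addOrderOf (FA.Torsion.toQb E R) by rw [toQb_order, hR]; norm_num,
      addOrderOf_nsmul_eq_zero]
  have hgood := (FA.Summary.neronOggShafarevich_all E (q := 2) Nat.prime_three (by norm_num)).2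
    fun A hA σ hσ n Q hQ => FA.Summary.inertia_fixes_torsion_of_point E
      (by rw [hj, padicValRat.of_int]; positivity) hA hσ Nat.prime_three (by norm_num) hP
      (by rw [toQb_order, hR]; norm_num) (map_toQb σ R)
      (fun hd => absurd (Nat.prime_two.dvd_of_dvd_pow hd) (by norm_num)) Q hQ
  obtain ⟨W, ⟨C, hC⟩, hΔ⟩ := FA.CM.Deuring.exists_model_not_dvd E hgood
  haveI : Finite (AddCommGroup.torsion E.toAffine.Point) := by
    rcases FA.Torsion.mazur_torsion E with ⟨n, hn, ⟨e⟩⟩ | ⟨m, hm, ⟨e⟩⟩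
    · haveI : NeZero n := ⟨by rintro rfl; simp at hn⟩
      exact Finite.of_injective _ e.injective
    · haveI : NeZero (2 * m) := ⟨by rintro h; simp at hm; omega⟩
      exact Finite.of_injective _ e.injective
  have hmem : R ∈ AddCommGroup.torsion E.toAffine.Point :=
    (AddCommGroup.mem_torsion _).2 (addOrderOf_pos_iff.1 (by omega))
  have h9 : 9 ∣ Nat.card (AddCommGroup.torsion E.toAffine.Point) := by
    have h := addOrderOf_dvd_natCard (⟨R, hmem⟩ : AddCommGroup.torsion E.toAffine.Point)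
    rwa [← AddSubgroup.addOrderOf_coe, hR] at h
  have h := FA.Summary.torsion_card_odd_dvd_pointCount E W C hC Nat.prime_two hΔ ⟨4, rfl⟩ h9
  rw [FA.Torsion.natCard_point_reduction 2 W hΔ, FA.Torsion.countMod] at h
  have := Nat.le_of_dvd (Nat.succ_pos _) h
  have := Finset.card_filter_le (Finset.univ : Finset (ZMod 2 × ZMod 2)) fun p : ZMod 2 × ZMod 2 =>
    p.2 ^ 2 + (W.a₁ : ZMod 2) * p.1 * p.2 + (W.a₃ : ZMod 2) * p.2 =
      p.1 ^ 3 + (W.a₂ : ZMod 2) * p.1 ^ 2 + (W.a₄ : ZMod 2) * p.1 + (W.a₆ : ZMod 2)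
  rw [Finset.card_univ, Fintype.card_prod, ZMod.card] at this
  omega

/-- **No independent stable line of order `3` beside a rational point of order `9`.** -/
theorem false_nine_three {R : E.toAffine.Point} (hR : addOrderOf R = 9)
    {g : (E.toAffine⁄Qb).Point} (hg : addOrderOf g = 3) (hgs : Stab g)
    (hout : 3 • FA.Torsion.toQb E R ∉ AddSubgroup.zmultiples g) : False := by
  set G := AddSubgroup.zmultiples g with hG
  haveI : Finite G := Nat.finite_of_card_ne_zero (by rw [hG, Nat.card_zmultiples, hg]; norm_num)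
  have hst : ∀ σ : GQ, ∀ X ∈ G, σ • X ∈ G := fun σ X hX => by
    obtain ⟨k, rfl⟩ := AddSubgroup.mem_zmultiples_iff.1 hX
    obtain ⟨c, hc⟩ := hgs σ
    refine AddSubgroup.mem_zmultiples_iff.2 ⟨k * c, ?_⟩
    show _ = Affine.Point.map σ.toAlgHom _
    rw [map_zsmul, ← hc, mul_zsmul]
  obtain ⟨E', hE', hint, -, θ, -, hθ, hker⟩ :=
    @FA.Summary.exists_quotient_curve ℚ _ _ _ E _ G ‹Finite G› hst
  have hθ' : IsQuot θ g := ⟨hθ, fun X => ⟨fun h => hker.le h, fun h => hker.ge h⟩⟩
  have hp := Nat.prime_three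
  have hh : addOrderOf (FA.Torsion.toQb E R) = 3 ^ 2 := by rw [toQb_order, hR]; norm_num
  obtain ⟨P, hP, htop⟩ := exists_lift hp le_rfl (l := g) (A := 1) (by rw [pow_one, hg]) hh
    (fun _ => by simpa using hout)
  obtain ⟨hord, hstab, -⟩ := hθ'.lift hp le_rfl (A := 1) (by rw [pow_one, hg]) hh
    (fun σ => ⟨1, by rw [one_zsmul, map_toQb]⟩) hP htop
  have hj' := FA.X0TwentySeven.j_of_stable (E := E') ⟨θ P, hord.trans (by norm_num), hstab⟩
  have hI : IsIntegral ℤ E.j := hint.1 (by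
    rw [hj', show (-12288000 : ℚ) = algebraMap ℤ ℚ (-12288000) by norm_num]
    exact isIntegral_algebraMap)
  obtain ⟨z, hz⟩ := IsIntegrallyClosed.isIntegral_iff.1 hI
  exact false_nine_of_integral hR (z := z) (by rw [← hz, eq_intCast])

end FA.QuadTorsion

end
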