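import Fermat.Agent.QuadTorsion.Sectors
import Fermat.Agent.Root.SummaryCMIsogeny
import Fermat.Agent.Torsion.Order15
import Fermat.Agent.Torsion.Realised

/-!
# Points of orders `5` and `3` in two sectors

A rational point of order `5` beside a stable line of order `3` leaves two of the four invariants
of `X₀(15)`, as only two fibre parameters `t = (u² - 11 u - 1) / u` have rational `u`. Both have a
short model with a rational point of order `3` whose twist by `5`, respectively `-15`, has one of
order `5`, so the two sectors differ by the sign of `√5`, respectively `√-15`.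
-/

set_option autoImplicit false
set_option linter.style.haveILetI false
set_option linter.unusedSectionVars false

noncomputable section

open WeierstrassCurve FA.KerPoly FA.ClassBound
open FA.Thirteen (tateCurve)
open FA.Frob (ratCurve)
open scoped WeierstrassCurve.Affine

local notation "Qb" => AlgebraicClosure ℚ
local notation "GQ" => AlgebraicClosure ℚ ≃ₐ[ℚ] AlgebraicClosure ℚ

namespace FA.QuadTorsion

variable {E : WeierstrassCurve ℚ} [E.IsElliptic]

/-- **A rational point of order `5` and a stable line of order `3`** leave two invariants. -/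
theorem j_of_five_three {R : E.toAffine.Point} (hR : addOrderOf R = 5)
    (h3 : HasStableOrder E 3) : E.j = -121945 / 32 ∨ E.j = 46969655 / 32768 := by
  have hne : ∀ k : ℕ, k ≠ 0 → k < 5 → k • R ≠ 0 := fun k hk hlt =>
    nsmul_ne_zero_of_lt_addOrderOf hk (hR.symm ▸ hlt)
  have h5 : 5 • R = 0 := hR ▸ addOrderOf_nsmul_eq_zero R
  obtain ⟨b, c, h0, hE, e, he, hjE⟩ := FA.Torsion.exists_tate_j R
    (hne 2 (by norm_num) (by norm_num)) (hne 3 (by norm_num) (by norm_num))
  obtain rfl : c = b := by
    obtain ⟨h2, e2⟩ := FA.Torsion.tate_two (b := b) (c := c) (h0 := h0)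
    obtain ⟨h3', e3⟩ := FA.Torsion.tate_three (b := b) (c := c) (h0 := h0)
    have h5' : (3 + 2) • Affine.Point.some 0 0 h0 = 0 := e.injective (by
      rw [map_nsmul, he, map_zero]; exact h5)
    rw [add_nsmul] at h5'
    have h5'' := eq_neg_of_add_eq_zero_left h5'
    rw [e2, e3, Affine.Point.neg_some, Affine.Point.some.injEq] at h5''
    exact h5''.1
  obtain ⟨W, _, hW, hΔW, hj⟩ := FA.X0Composite.exists_model E
  obtain ⟨x, hx⟩ := FA.EC.exists_root_Ψ₃ _ (FA.X0Composite.not_irreducible hW Nat.prime_three h3)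
  obtain ⟨s, hs, hsj⟩ := FA.EC.exists_param_three _ x hx
  rw [map_c₄, map_Δ, eq_intCast, eq_intCast] at hsj
  have hjs : E.j = (s + 27) * (s + 3) ^ 3 / s := by
    rw [hj, div_eq_div_iff hΔW hs]; linear_combination hsj
  have hu : c ≠ 0 := FA.Torsion.tate_b_ne_zero c c
  have hΔ0 : (tateCurve c c).Δ ≠ 0 := (tateCurve c c).isUnit_Δ.ne_zero
  have hΔu : (tateCurve c c).Δ = c ^ 5 * (c ^ 2 - 11 * c - 1) := by
    rw [FA.Thirteen.Δ_tateCurve]; ring
  have h4u : (tateCurve c c).c₄ = c ^ 4 - 12 * c ^ 3 + 14 * c ^ 2 + 12 * c + 1 := by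
    simp [tateCurve, WeierstrassCurve.c₄, WeierstrassCurve.b₂, WeierstrassCurve.b₄]; ring
  obtain ⟨t, ht⟩ : ∃ t, t = (c ^ 2 - 11 * c - 1) / c := ⟨_, rfl⟩
  have htc : t * c = c ^ 2 - 11 * c - 1 := by rw [ht, div_mul_cancel₀ _ hu]
  have ht0 : t ≠ 0 := fun e0 => hΔ0 (by rw [hΔu, ← htc, e0]; ring)
  have hjt : E.j = (t ^ 2 + 10 * t + 5) ^ 3 / t := by
    rw [← hjE, WeierstrassCurve.j, Units.val_inv_eq_inv_val, coe_Δ', hΔu, h4u, ← htc,
      show c ^ 4 - 12 * c ^ 3 + 14 * c ^ 2 + 12 * c + 1 = c ^ 2 * (t ^ 2 + 10 * t + 5) by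
        linear_combination -(t * c + (c ^ 2 - 11 * c - 1) + 10 * c) * htc]
    field_simp
  have hfib := FA.EC.X15.fibre_points hs ht0 (by
    have := hjs.symm.trans hjt
    rw [div_eq_div_iff hs ht0] at this
    linear_combination this)
  rcases hfib with r | r | r | r <;> rw [r] at htc hjt
  · exact absurd (show ((2 * c + 29) / 13) ^ 2 = 5 by linear_combination (-4 / 169 : ℚ) * htc)
      (FA.EC.X15.rat_sq_ne_five _)
  · exact Or.inl (hjt.trans (by norm_num))
  · exact Or.inr (hjt.trans (by norm_num))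
  · exact absurd (show (2 * c - 1) ^ 2 = 5 by linear_combination (-4 : ℚ) * htc)
      (FA.EC.X15.rat_sq_ne_five _)

/-- The short model for `j = -121945/32`. -/
def shortFive : WeierstrassCurve ℤ := ⟨0, 0, 0, -97875, 14208750⟩

/-- The short model for `j = 46969655/32768`. -/
def shortFifteen : WeierstrassCurve ℤ := ⟨0, 0, 0, 6409125, 2831253750⟩

/-- The twist of `shortFive` by `5`. -/
def shortFiveTwist : WeierstrassCurve ℤ := ⟨0, 0, 0, -3171150000, 82865430000000⟩

/-- The twist of `shortFifteen` by `-15`. -/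
def shortFifteenTwist : WeierstrassCurve ℤ :=
  ⟨0, 0, 0, 1868900850000, -445820540490000000⟩

theorem quadTwist_shortFive :
    FA.Twists.quadTwist (ratCurve shortFive) 5 = ratCurve shortFiveTwist := by
  ext <;> simp [FA.Twists.quadTwist, FA.Twists.short, shortFive, shortFiveTwist,
    WeierstrassCurve.c₄, WeierstrassCurve.c₆, WeierstrassCurve.b₂, WeierstrassCurve.b₄,
    WeierstrassCurve.b₆] <;> norm_num

theorem quadTwist_shortFifteen :
    FA.Twists.quadTwist (ratCurve shortFifteen) (-15) = ratCurve shortFifteenTwist := by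
  ext <;> simp [FA.Twists.quadTwist, FA.Twists.short, shortFifteen, shortFifteenTwist,
    WeierstrassCurve.c₄, WeierstrassCurve.c₆, WeierstrassCurve.b₂, WeierstrassCurve.b₄,
    WeierstrassCurve.b₆] <;> norm_num

/-- A short model with a rational point of order `3`, whose twist by `δ` has one of order `5`. -/
def IsModel (δ : ℤ) (S : WeierstrassCurve ℚ) : Prop :=
  (∃ R : S.toAffine.Point, addOrderOf R = 3) ∧
    ∃ R : (FA.Twists.quadTwist S δ).toAffine.Point, addOrderOf R = 5

theorem isModel_five : IsModel 5 (ratCurve shortFive) := by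
  refine ⟨⟨FA.Torsion.intPoint shortFive (by decide +kernel) 75 2700 (by decide +kernel),
    addOrderOf_eq_prime (by decide +kernel) (by decide +kernel)⟩, ?_⟩
  rw [Int.cast_ofNat, quadTwist_shortFive]
  exact ⟨FA.Torsion.intPoint shortFiveTwist (by decide +kernel) (-18900) 11664000
    (by decide +kernel), addOrderOf_eq_prime (by decide +kernel) (by decide +kernel)⟩

theorem isModel_fifteen : IsModel (-15) (ratCurve shortFifteen) := by
  refine ⟨⟨FA.Torsion.intPoint shortFifteen (by decide +kernel) 675 86400 (by decide +kernel),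
    addOrderOf_eq_prime (by decide +kernel) (by decide +kernel)⟩, ?_⟩
  rw [Int.cast_neg, Int.cast_ofNat, quadTwist_shortFifteen]
  exact ⟨FA.Torsion.intPoint shortFifteenTwist (by decide +kernel) 413100 629856000
    (by decide +kernel), addOrderOf_eq_prime (by decide +kernel) (by decide +kernel)⟩

theorem not_allowed_five : ¬ Allowed 5 5 := by unfold Allowed; omega

/-- **The two sectors of a model**: any points of orders `5`, `3` in different sectors have signs
multiplying to that of `√δ`. -/
theorem sgn_of_model {S : WeierstrassCurve ℚ} [S.IsElliptic] {δ : ℤ} (hδ : IsModel δ S) {r : Qb}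
    (hr : SqrtRat r) (hr2 : r ^ 2 = (δ : Qb)) {u v : Qb} (hu : SqrtRat u) (hv : SqrtRat v)
    {P Q : (S.toAffine⁄Qb).Point} (hP : Sector u P) (hQ : Sector v Q) (hPo : addOrderOf P = 5)
    (hQo : addOrderOf Q = 3) (huv : ∃ τ, sgn u τ ≠ sgn v τ) (σ : GQ) :
    sgn r σ = sgn u σ * sgn v σ := by
  obtain ⟨⟨R₃, hR₃⟩, R₅, hR₅⟩ := hδ
  have hd : r ^ 2 = algebraMap ℚ Qb (δ : ℚ) := by rw [hr2, map_intCast]
  haveI := FA.Root.quadTwist_isElliptic S (d := (δ : ℚ))
    (fun h => hr.ne_zero (by simpa [h] using hd))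
  obtain ⟨e, he⟩ := exists_transfer S hr hd
  set A := FA.Torsion.toQb S R₃
  set B := e (FA.Torsion.toQb _ R₅)
  have hA : Sector 1 A := fun σ => by rw [sgn_one, one_zsmul]; exact map_toQb σ R₃
  have hAo : addOrderOf A = 3 := (toQb_order R₃).trans hR₃
  have hB : Sector r B := sector_of_twist he R₅
  have hBo : addOrderOf B = 5 :=
    ((AddEquiv.addOrderOf_eq _ _).trans (toQb_order R₅)).trans hR₅
  have o3 : Odd 3 := by decide
  have o5 : Odd 5 := by decide
  have hur : ∀ σ, sgn u σ = sgn r σ := fun σ => by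
    by_contra hne
    have h := allowed_of_sectors hu hr hne hP hB (hPo.symm ▸ o5) (hBo.symm ▸ o5)
    rw [hPo, hBo] at h
    exact not_allowed_five h
  have hv1 : ∀ σ, sgn v σ = 1 := fun σ => by
    by_contra hne
    obtain ⟨τ, hτ⟩ := huv
    refine false_of_three_sectors (s := ![1, r, v]) (P := ![A, B, Q]) ?_ ?_ ?_ ?_ ?_
    · intro i; fin_cases i
      exacts [SqrtRat.one, hr, hv]
    · have hr1 : ∃ τ, sgn r τ ≠ 1 := by
        by_contra hall
        push Not at hall
        obtain ⟨R, hR⟩ := exists_toQb (P := B) fun σ => by rw [hB σ, hall σ, one_zsmul]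
        have hRo : addOrderOf R = 5 := by rw [← toQb_order R, hR, hBo]
        refine FA.Torsion.no_order_15 S (R₃ + R) ?_
        rw [(AddCommute.all R₃ R).addOrderOf_add_eq_mul_addOrderOf_of_coprime
          (by rw [hR₃, hRo]; norm_num), hR₃, hRo]
      obtain ⟨τ₁, hτ₁⟩ := hr1
      intro i j hij
      fin_cases i <;> fin_cases j <;> first | exact absurd rfl hij | skip
      · exact ⟨τ₁, by simpa [sgn_one] using hτ₁.symm⟩
      · exact ⟨σ, by simpa [sgn_one] using Ne.symm hne⟩
      · exact ⟨τ₁, by simpa [sgn_one] using hτ₁⟩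
      · exact ⟨τ, by simpa [← hur τ] using hτ⟩
      · exact ⟨σ, by simpa [sgn_one] using hne⟩
      · exact ⟨τ, by simpa [← hur τ] using hτ.symm⟩
    · intro i; fin_cases i
      exacts [hA, hB, hQ]
    · intro i; fin_cases i
      exacts [hAo.symm ▸ o3, hBo.symm ▸ o5, hQo.symm ▸ o3]
    · intro i; fin_cases i
      exacts [fun h => absurd (hAo.symm.trans ((congrArg addOrderOf h).trans addOrderOf_zero))
          (by norm_num),
        fun h => absurd (hBo.symm.trans ((congrArg addOrderOf h).trans addOrderOf_zero))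
          (by norm_num),
        fun h => absurd (hQo.symm.trans ((congrArg addOrderOf h).trans addOrderOf_zero))
          (by norm_num)]
  rw [hur σ, hv1 σ, mul_one]

end FA.QuadTorsion

end
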