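import Fermat.Agent.QuadTorsion.Exclusions
import Fermat.Agent.Root.SummaryTwists
import Fermat.Agent.Root.SummaryIsogenyClassBound

/-!
# The odd torsion in the two sectors of a square root

The points fixed by Galois and those on which it acts by the sign of `s = √d` come from the rational
points of the curve and of its twist. By Mazur the odd torsion of each is cyclic of order
`1, 3, 5, 7` or `9`; the pairing, the degree `27` and the isogeny degrees leave for both together
the orders `(1, n)`, `(n, 1)`, `(3, 3)`, `(3, 5)` and `(5, 3)`.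
-/

set_option autoImplicit false
set_option linter.style.haveILetI false
set_option linter.unusedSectionVars false

noncomputable section

open WeierstrassCurve FA.KerPoly FA.ClassBound
open scoped WeierstrassCurve.Affine

local notation "Qb" => AlgebraicClosure ℚ
local notation "GQ" => AlgebraicClosure ℚ ≃ₐ[ℚ] AlgebraicClosure ℚ

namespace FA.QuadTorsion

variable {E : WeierstrassCurve ℚ} [E.IsElliptic]

/-- Galois fixes the point. -/
def InPlus (P : (E.toAffine⁄Qb).Point) : Prop :=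
  ∀ σ : GQ, Affine.Point.map σ.toAlgHom P = P

/-- Galois acts on the point by the sign of `s`. -/
def InMinus (s : Qb) (P : (E.toAffine⁄Qb).Point) : Prop :=
  ∀ σ : GQ, (σ s = s → Affine.Point.map σ.toAlgHom P = P) ∧
    (σ s = -s → Affine.Point.map σ.toAlgHom P = -P)

theorem sign_cases {s : Qb} {d : ℚ} (hs : s ^ 2 = algebraMap ℚ Qb d) (σ : GQ) :
    σ s = s ∨ σ s = -s :=
  sq_eq_sq_iff_eq_or_eq_neg.1 (show (σ s) ^ 2 = s ^ 2 by rw [← map_pow, hs, σ.commutes])

/-- A fixed point is rational. -/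
theorem exists_toQb {P : (E.toAffine⁄Qb).Point} (hP : InPlus P) :
    ∃ R : E.toAffine.Point, FA.Torsion.toQb E R = P := by
  rcases P with _ | ⟨x, y, h⟩
  · exact ⟨0, map_zero _⟩
  obtain ⟨a, rfl⟩ := FA.EC.mem_range_of_fixed fun σ => (Affine.Point.some.inj (hP σ)).1
  obtain ⟨b, rfl⟩ := FA.EC.mem_range_of_fixed fun σ => (Affine.Point.some.inj (hP σ)).2
  exact ⟨.some a b ((Affine.map_nonsingular E.toAffine (algebraMap ℚ Qb).injective a b).1 h), rfl⟩

/-- In a group with a test element for the odd torsion, that element generates it. -/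
theorem oddGen_of_equiv {A G : Type*} [AddCommGroup A] [AddCommGroup G]
    (e : AddCommGroup.torsion A ≃+ G) {N : ℕ} (hN : N ≠ 0) (hexp : ∀ x : G, N • x = 0) {m : ℕ}
    (hm : m ∈ ({1, 3, 5, 7, 9} : Finset ℕ)) {g : G} (hg0 : m • g = 0)
    (hg : ∀ k < m, k • g = 0 → k = 0)
    (hgen : ∀ x : G, ∀ d ∈ N.divisors, Odd d → d • x = 0 → ∃ j < m, j • g = x) :
    ∃ R : A, addOrderOf R ∈ ({1, 3, 5, 7, 9} : Finset ℕ) ∧
      ∀ P : A, Odd (addOrderOf P) → P ∈ AddSubgroup.zmultiples R := by
  have hm0 : 0 < m := by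
    rcases Nat.eq_zero_or_pos m with rfl | h
    · simp at hm
    · exact h
  have hord : addOrderOf g = m := (addOrderOf_eq_iff hm0).2
    ⟨hg0, fun k hk hk0 h => hk0.ne' (hg k hk h)⟩
  refine ⟨(e.symm g).1, by rw [AddSubgroup.addOrderOf_coe, AddEquiv.addOrderOf_eq, hord]; exact hm,
    fun P hP => ?_⟩
  have hmem : P ∈ AddCommGroup.torsion A :=
    (AddCommGroup.mem_torsion _).2 (addOrderOf_pos_iff.1 hP.pos)
  set x := e ⟨P, hmem⟩ with hx
  have hxo : addOrderOf x = addOrderOf P := by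
    rw [hx, AddEquiv.addOrderOf_eq, ← AddSubgroup.addOrderOf_coe]
  obtain ⟨j, -, hj⟩ := hgen x _
    (Nat.mem_divisors.2 ⟨hxo ▸ addOrderOf_dvd_of_nsmul_eq_zero (hexp x), hN⟩) hP
    (hxo ▸ addOrderOf_nsmul_eq_zero x)
  refine AddSubgroup.mem_zmultiples_iff.2 ⟨j, ?_⟩
  have h := congrArg (fun z : G => ((e.symm z : AddCommGroup.torsion A) : A)) hj
  simpa [hx] using h

set_option maxRecDepth 4000 in
/-- **The odd rational torsion is cyclic**, of order `1, 3, 5, 7` or `9`. -/
theorem exists_oddGen (E : WeierstrassCurve ℚ) [E.IsElliptic] :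
    ∃ R : E.toAffine.Point, addOrderOf R ∈ ({1, 3, 5, 7, 9} : Finset ℕ) ∧
      ∀ P : E.toAffine.Point, Odd (addOrderOf P) → P ∈ AddSubgroup.zmultiples R := by
  rcases FA.Torsion.mazur_torsion E with ⟨n, hn, ⟨e⟩⟩ | ⟨m, hm, ⟨e⟩⟩
  · fin_cases hn
    · exact oddGen_of_equiv e (N := 1) (m := 1) (g := 0) (by decide) (by decide) (by decide)
        (by decide) (by decide) (by decide)
    · exact oddGen_of_equiv e (N := 2) (m := 1) (g := 0) (by decide) (by decide) (by decide)
        (by decide) (by decide) (by decide)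
    · exact oddGen_of_equiv e (N := 3) (m := 3) (g := 1) (by decide) (by decide) (by decide)
        (by decide) (by decide) (by decide)
    · exact oddGen_of_equiv e (N := 4) (m := 1) (g := 0) (by decide) (by decide) (by decide)
        (by decide) (by decide) (by decide)
    · exact oddGen_of_equiv e (N := 5) (m := 5) (g := 1) (by decide) (by decide) (by decide)
        (by decide) (by decide) (by decide)
    · exact oddGen_of_equiv e (N := 6) (m := 3) (g := 2) (by decide) (by decide) (by decide)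
        (by decide) (by decide) (by decide)
    · exact oddGen_of_equiv e (N := 7) (m := 7) (g := 1) (by decide) (by decide) (by decide)
        (by decide) (by decide) (by decide)
    · exact oddGen_of_equiv e (N := 8) (m := 1) (g := 0) (by decide) (by decide) (by decide)
        (by decide) (by decide) (by decide)
    · exact oddGen_of_equiv e (N := 9) (m := 9) (g := 1) (by decide) (by decide) (by decide)
        (by decide) (by decide) (by decide)
    · exact oddGen_of_equiv e (N := 10) (m := 5) (g := 2) (by decide) (by decide) (by decide)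
        (by decide) (by decide) (by decide)
    · exact oddGen_of_equiv e (N := 12) (m := 3) (g := 4) (by decide) (by decide) (by decide)
        (by decide) (by decide) (by decide)
  · fin_cases hm
    · exact oddGen_of_equiv e (N := 2) (m := 1) (g := 0) (by decide) (by decide) (by decide)
        (by decide) (by decide) (by decide)
    · exact oddGen_of_equiv e (N := 4) (m := 1) (g := 0) (by decide) (by decide) (by decide)
        (by decide) (by decide) (by decide)
    · exact oddGen_of_equiv e (N := 6) (m := 3) (g := (0, 2)) (by decide) (by decide) (by decide)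
        (by decide) (by decide) (by decide)
    · exact oddGen_of_equiv e (N := 8) (m := 1) (g := 0) (by decide) (by decide) (by decide)
        (by decide) (by decide) (by decide)

/-- **The pairing of a basis**: a primitive root of unity, fixed when both points keep or both
change sign, inverted when one changes. -/
theorem exists_root_of_basis {n : ℕ} (hn : n ≠ 0) {g h : (E.toAffine⁄Qb).Point}
    (hgn : addOrderOf g = n) (hhn : addOrderOf h = n)
    (hd : ∀ a b : ℤ, a • g = b • h → a • g = 0) :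
    ∃ ζ : Qb, IsPrimitiveRoot ζ n ∧ ∀ σ : GQ,
      (Affine.Point.map σ.toAlgHom g = g ∧ Affine.Point.map σ.toAlgHom h = h → σ ζ = ζ) ∧
      (Affine.Point.map σ.toAlgHom g = -g ∧ Affine.Point.map σ.toAlgHom h = -h → σ ζ = ζ) ∧
      (Affine.Point.map σ.toAlgHom g = g ∧ Affine.Point.map σ.toAlgHom h = -h → σ ζ = ζ⁻¹) ∧
      (Affine.Point.map σ.toAlgHom g = -g ∧ Affine.Point.map σ.toAlgHom h = h → σ ζ = ζ⁻¹) := by
  haveI : NeZero n := ⟨hn⟩
  obtain ⟨e, hpow, hml, hmr, hself, hnd, hgal⟩ := FA.Summary.weilPairing_exists E hn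
  have hk : ∀ (k : ℕ) {P : (E.toAffine⁄Qb).Point}, n • P = 0 → n • (k • P) = 0 := fun k P hP => by
    rw [smul_comm, hP, nsmul_zero]
  have hne : ∀ {P Q}, n • P = 0 → n • Q = 0 → e P Q ≠ 0 := fun {P Q} hP hQ h0 => by
    have := hpow P Q hP hQ
    rw [h0, zero_pow hn] at this
    exact zero_ne_one this
  have hL0 : ∀ Q, n • Q = 0 → e 0 Q = 1 := fun Q hQ =>
    (mul_eq_left₀ (hne (nsmul_zero n) hQ)).1 (by
      rw [← hml _ _ _ (nsmul_zero n) (nsmul_zero n) hQ, add_zero])
  have hR0 : ∀ P, n • P = 0 → e P 0 = 1 := fun P hP =>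
    (mul_eq_left₀ (hne hP (nsmul_zero n))).1 (by
      rw [← hmr _ _ _ hP (nsmul_zero n) (nsmul_zero n), add_zero])
  have hL : ∀ (k : ℕ) P Q, n • P = 0 → n • Q = 0 → e (k • P) Q = e P Q ^ k := fun k => by
    induction k with
    | zero => intro P Q _ hQ; rw [zero_nsmul, pow_zero, hL0 Q hQ]
    | succ k ih =>
      intro P Q hP hQ
      rw [succ_nsmul, hml _ _ _ (hk k hP) hP hQ, ih P Q hP hQ, pow_succ]
  have hR : ∀ (k : ℕ) P Q, n • P = 0 → n • Q = 0 → e P (k • Q) = e P Q ^ k := fun k => by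
    induction k with
    | zero => intro P Q hP _; rw [zero_nsmul, pow_zero, hR0 P hP]
    | succ k ih =>
      intro P Q hP hQ
      rw [succ_nsmul, hmr _ _ _ hP (hk k hQ) hQ, ih P Q hP hQ, pow_succ]
  have hg0 : n • g = 0 := by rw [← hgn, addOrderOf_nsmul_eq_zero]
  have hh0 : n • h = 0 := by rw [← hhn, addOrderOf_nsmul_eq_zero]
  have hneg : ∀ {P : (E.toAffine⁄Qb).Point}, n • P = 0 → n • -P = 0 := fun {P} hP => by
    rw [← natCast_zsmul, zsmul_neg, natCast_zsmul, hP, neg_zero]
  have hLn : ∀ {P Q}, n • P = 0 → n • Q = 0 → e (-P) Q = (e P Q)⁻¹ := fun {P Q} hP hQ =>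
    eq_inv_of_mul_eq_one_left (by rw [← hml _ _ _ (hneg hP) hP hQ, neg_add_cancel, hL0 Q hQ])
  have hRn : ∀ {P Q}, n • P = 0 → n • Q = 0 → e P (-Q) = (e P Q)⁻¹ := fun {P Q} hP hQ =>
    eq_inv_of_mul_eq_one_left (by rw [← hmr _ _ _ hP (hneg hQ) hQ, neg_add_cancel, hR0 P hP])
  have hnat : ∀ {P : (E.toAffine⁄Qb).Point}, addOrderOf P = n → ∀ c : ℤ, ∃ k : ℕ, k • P = c • P :=
    fun {P} hP c => ⟨(c % n).toNat, by
      rw [← natCast_zsmul, Int.toNat_of_nonneg (Int.emod_nonneg _ (by exact_mod_cast hn)), ← hP,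
        mod_addOrderOf_zsmul]⟩
  have hprim : IsPrimitiveRoot (e g h) n := ⟨hpow _ _ hg0 hh0, fun m hm => by
    rw [← hgn]
    refine addOrderOf_dvd_of_nsmul_eq_zero (hnd _ (hk m hg0) fun Q hQ => ?_)
    obtain ⟨a, b, rfl⟩ := span_of_disjoint hn hgn hhn hd hQ
    obtain ⟨a', ha⟩ := hnat hgn a
    obtain ⟨b', hb⟩ := hnat hhn b
    rw [← ha, ← hb, hmr _ _ _ (hk m hg0) (hk a' hg0) (hk b' hh0), hR a' _ _ (hk m hg0) hg0,
      hR b' _ _ (hk m hg0) hh0, hL m _ _ hg0 hg0, hL m _ _ hg0 hh0, hself _ hg0, hm]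
    simp⟩
  refine ⟨e g h, hprim, fun σ => ?_⟩
  have hval := hgal σ g h hg0 hh0
  refine ⟨?_, ?_, ?_, ?_⟩ <;> rintro ⟨e1, e2⟩ <;> rw [e1, e2] at hval
  · exact hval.symm
  · rw [← hval, hLn hg0 (hneg hh0), hRn hg0 hh0, inv_inv]
  · rw [← hval, hRn hg0 hh0]
  · rw [← hval, hLn hg0 hh0]

/-- **Points moved only by signs**: two independent ones of order `n` make every unit `±1`. -/
theorem unit_eq_of_signs {n : ℕ} (hn : n ≠ 0) {g h : (E.toAffine⁄Qb).Point}
    (hgn : addOrderOf g = n) (hhn : addOrderOf h = n)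
    (hd : ∀ a b : ℤ, a • g = b • h → a • g = 0)
    (hg : ∀ σ : GQ, Affine.Point.map σ.toAlgHom g = g ∨ Affine.Point.map σ.toAlgHom g = -g)
    (hh : ∀ σ : GQ, Affine.Point.map σ.toAlgHom h = h ∨ Affine.Point.map σ.toAlgHom h = -h)
    {u : ℕ} (hu : u.Coprime n) : (u : ZMod n) = 1 ∨ (u : ZMod n) = -1 := by
  obtain ⟨ζ, hprim, hact⟩ := exists_root_of_basis hn hgn hhn hd
  obtain ⟨σ, hσ⟩ := exists_aut_pow (Nat.pos_of_ne_zero hn) hprim hu
  have h0 : ζ ≠ 0 := hprim.ne_zero hn
  have hcase : ζ ^ u = ζ ∨ ζ ^ u = ζ⁻¹ := by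
    rw [← hσ]
    rcases hg σ with e1 | e1 <;> rcases hh σ with e2 | e2
    · exact Or.inl ((hact σ).1 ⟨e1, e2⟩)
    · exact Or.inr ((hact σ).2.2.1 ⟨e1, e2⟩)
    · exact Or.inr ((hact σ).2.2.2 ⟨e1, e2⟩)
    · exact Or.inl ((hact σ).2.1 ⟨e1, e2⟩)
  rcases hcase with h1 | h1
  · left
    have hc : ((u : ℤ) : ZMod n) = ((1 : ℤ) : ZMod n) :=
      (ZMod.intCast_eq_intCast_iff_dvd_sub _ _ _).2 ((hprim.zpow_eq_one_iff_dvd _).1 (by
        rw [zpow_sub₀ h0, zpow_one, zpow_natCast, h1, div_self h0]))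
    simpa using hc
  · right
    have hc : ((u + 1 : ℕ) : ZMod n) = 0 := (ZMod.natCast_eq_zero_iff _ _).2
      (hprim.dvd_of_pow_eq_one _ (by rw [pow_succ, h1, inv_mul_cancel₀ h0]))
    exact eq_neg_of_add_eq_zero_left (by simpa using hc)

/-- A point moved only by signs has stable multiples. -/
theorem stab_of_signs {g : (E.toAffine⁄Qb).Point}
    (hg : ∀ σ : GQ, Affine.Point.map σ.toAlgHom g = g ∨ Affine.Point.map σ.toAlgHom g = -g) :
    Stab g := fun σ => by
  rcases hg σ with h | h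
  · exact ⟨1, by rw [one_zsmul, h]⟩
  · exact ⟨-1, by rw [neg_one_zsmul, h]⟩

theorem InPlus.signs {g : (E.toAffine⁄Qb).Point} (hg : InPlus g) (σ : GQ) :
    Affine.Point.map σ.toAlgHom g = g ∨ Affine.Point.map σ.toAlgHom g = -g := Or.inl (hg σ)

theorem InMinus.signs {s : Qb} {d : ℚ} (hs : s ^ 2 = algebraMap ℚ Qb d)
    {g : (E.toAffine⁄Qb).Point} (hg : InMinus s g) (σ : GQ) :
    Affine.Point.map σ.toAlgHom g = g ∨ Affine.Point.map σ.toAlgHom g = -g :=
  (sign_cases hs σ).imp (hg σ).1 (hg σ).2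

theorem InPlus.zsmul {g : (E.toAffine⁄Qb).Point} (hg : InPlus g) (k : ℤ) : InPlus (k • g) :=
  fun σ => by rw [map_zsmul, hg σ]

theorem InMinus.zsmul {s : Qb} {g : (E.toAffine⁄Qb).Point} (hg : InMinus s g) (k : ℤ) :
    InMinus s (k • g) := fun σ =>
  ⟨fun h => by rw [map_zsmul, (hg σ).1 h], fun h => by rw [map_zsmul, (hg σ).2 h, zsmul_neg]⟩

/-- The two sectors meet in `2`-torsion only. -/
theorem eq_zero_of_both {s : Qb} {τ : GQ} (hτ : τ s = -s) {X : (E.toAffine⁄Qb).Point}
    (hp : InPlus X) (hm : InMinus s X) (hodd : Odd (addOrderOf X)) : X = 0 := by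
  have h := (hm τ).2 hτ
  rw [hp τ] at h
  have h2 : 2 • X = 0 := by rw [two_nsmul]; exact eq_neg_iff_add_eq_zero.1 h
  rcases (Nat.dvd_prime Nat.prime_two).1 (addOrderOf_dvd_of_nsmul_eq_zero h2) with h1 | h1
  · exact AddMonoid.addOrderOf_eq_one_iff.1 h1
  · rw [h1] at hodd; exact absurd hodd (by decide)

/-- The possible orders of the two cyclic parts. -/
def Allowed (a b : ℕ) : Prop :=
  a = 1 ∨ b = 1 ∨ a = 3 ∧ b = 3 ∨ a = 3 ∧ b = 5 ∨ a = 5 ∧ b = 3

/-- **The generators of the two parts and their orders.** -/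
theorem exists_generators (E : WeierstrassCurve ℚ) [E.IsElliptic] {d : ℚ} (hd : d ≠ 0) {s : Qb}
    (hs : s ^ 2 = algebraMap ℚ Qb d) {τ : GQ} (hτ : τ s = -s) :
    ∃ g h : (E.toAffine⁄Qb).Point, InPlus g ∧ InMinus s h ∧
      addOrderOf g ∈ ({1, 3, 5, 7, 9} : Finset ℕ) ∧ addOrderOf h ∈ ({1, 3, 5, 7, 9} : Finset ℕ) ∧
      Allowed (addOrderOf g) (addOrderOf h) ∧
      (∀ P, InPlus P → Odd (addOrderOf P) → P ∈ AddSubgroup.zmultiples g) ∧
      (∀ P, InMinus s P → Odd (addOrderOf P) → P ∈ AddSubgroup.zmultiples h) ∧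
      (∀ a b : ℤ, a • g = b • h → a • g = 0) ∧
      (∀ R : E.toAffine.Point, Odd (addOrderOf R) → addOrderOf R ∣ addOrderOf g) ∧
      ∀ R : (FA.Twists.quadTwist E d).toAffine.Point, Odd (addOrderOf R) →
        addOrderOf R ∣ addOrderOf h := by
  haveI := FA.Root.quadTwist_isElliptic E hd
  obtain ⟨s', e, hs', he⟩ := FA.Root.exists_twist_equiv_sqrt E hd
  -- the equivalence, compatibly with the sign of `s`
  have hss : ∀ σ : GQ, (σ s = s → σ s' = s') ∧ (σ s = -s → σ s' = -s') := fun σ => by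
    rcases sq_eq_sq_iff_eq_or_eq_neg.1 (show s' ^ 2 = s ^ 2 by rw [hs, hs']) with r | r <;>
      subst r <;> simp +contextual [map_neg]
  have hmove : ∀ (σ : GQ) Q, (σ s = s → Affine.Point.map (W' := E.toAffine) σ.toAlgHom (e Q) =
      e (σ • Q)) ∧ (σ s = -s → Affine.Point.map (W' := E.toAffine) σ.toAlgHom (e Q) =
      -e (σ • Q)) := fun σ Q =>
    ⟨fun h => (he σ Q).1 ((hss σ).1 h), fun h => (he σ Q).2 ((hss σ).2 h)⟩
  obtain ⟨R, hR, hRgen⟩ := exists_oddGen E
  obtain ⟨R', hR', hRgen'⟩ := exists_oddGen (FA.Twists.quadTwist E d)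
  set g := FA.Torsion.toQb E R with hgdef
  set h := e (FA.Torsion.toQb _ R') with hhdef
  have hgp : InPlus g := fun σ => map_toQb σ R
  have hhm : InMinus s h := fun σ => by
    refine ⟨fun hσ => ?_, fun hσ => ?_⟩
    · rw [hhdef, (hmove σ _).1 hσ, FA.Torsion.toQb_fixed]
    · rw [hhdef, (hmove σ _).2 hσ, FA.Torsion.toQb_fixed]
  have hgo : addOrderOf g = addOrderOf R := toQb_order R
  have hho : addOrderOf h = addOrderOf R' := by
    rw [hhdef, AddEquiv.addOrderOf_eq, toQb_order]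
  have hodd : ∀ {x : ℕ}, x ∈ ({1, 3, 5, 7, 9} : Finset ℕ) → Odd x := fun hx => by
    simp only [Finset.mem_insert, Finset.mem_singleton] at hx
    rcases hx with rfl | rfl | rfl | rfl | rfl <;> decide
  have hdis : ∀ a b : ℤ, a • g = b • h → a • g = 0 := fun a b hab =>
    eq_zero_of_both hτ (hgp.zsmul a) (hab ▸ hhm.zsmul b) ((hodd (hgo ▸ hR)).of_dvd_nat
      (addOrderOf_dvd_of_mem_zmultiples (AddSubgroup.zsmul_mem_zmultiples g a)))
  have hgs : Stab g := stab_of_signs hgp.signs
  have hhs : Stab h := stab_of_signs (hhm.signs hs)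
  refine ⟨g, h, hgp, hhm, hgo ▸ hR, hho ▸ hR', ?_, fun P hP ho => ?_, fun P hP ho => ?_, hdis,
    fun P ho => hgo ▸ addOrderOf_dvd_of_mem_zmultiples (hRgen P ho),
    fun P ho => hho ▸ addOrderOf_dvd_of_mem_zmultiples (hRgen' P ho)⟩
  · have hgO : HasStableOrder E (addOrderOf g) := ⟨g, rfl, hgs⟩
    have hhO : HasStableOrder E (addOrderOf h) := ⟨h, rfl, hhs⟩
    -- the rational point of the twist beside the line of `E`
    have hback : Stab (e.symm g) := stab_of_signs fun σ => by
      have hz := hmove σ (e.symm g)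
      rw [e.apply_symm_apply, hgp σ] at hz
      rcases sign_cases hs σ with hσ | hσ
      · exact Or.inl (e.injective (by rw [e.apply_symm_apply]; exact (hz.1 hσ).symm))
      · exact Or.inr (e.injective (by
          rw [map_neg, e.apply_symm_apply, eq_neg_iff_add_eq_zero, ← eq_neg_iff_add_eq_zero]
          exact neg_eq_iff_eq_neg.1 (hz.2 hσ).symm))
    have hmem : ∀ {a b : ℕ}, addOrderOf g = a → addOrderOf h = b → a.Coprime b →
        (∀ q, q.Prime → q ∣ a * b → q ∈ primeList) → a * b ∈ degreeList := fun ha hb hab hq =>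
      mem_degreeList ((ha ▸ hgO).mul hab (hb ▸ hhO))
        (mul_ne_zero (by rw [← ha]; exact (hodd (hgo ▸ hR)).pos.ne')
          (by rw [← hb]; exact (hodd (hho ▸ hR')).pos.ne')) hq
    have hsame : ∀ {n : ℕ}, addOrderOf g = n → addOrderOf h = n → Nat.Coprime 2 n →
        (2 : ZMod n) = 1 ∨ (2 : ZMod n) = -1 := fun {n} ha hb hn => by
      have := unit_eq_of_signs (u := 2) (by rw [← ha]; exact (hodd (hgo ▸ hR)).pos.ne') ha hb hdis
        hgp.signs (hhm.signs hs) hn
      simpa using this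
    have h93 : addOrderOf g = 9 → addOrderOf h = 3 → False := fun ha hb => by
      refine false_nine_three (hgo.symm.trans ha) hb hhs fun hin => ?_
      obtain ⟨k, hk⟩ := AddSubgroup.mem_zmultiples_iff.1 hin
      have h0 := hdis 3 k (by rw [hk, ← hgdef]; exact natCast_zsmul g 3)
      have := addOrderOf_dvd_iff_zsmul_eq_zero.2 h0
      rw [ha] at this
      norm_num at this
    have h39 : addOrderOf g = 3 → addOrderOf h = 9 → False := fun ha hb => by
      refine false_nine_three (E := FA.Twists.quadTwist E d) (hho.symm.trans hb)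
        (g := e.symm g) (by rw [AddEquiv.addOrderOf_eq, ha]) hback fun hin => ?_
      obtain ⟨k, hk⟩ := AddSubgroup.mem_zmultiples_iff.1 hin
      have hk' := congrArg e hk
      rw [map_zsmul, e.apply_symm_apply, map_nsmul, ← hhdef, ← natCast_zsmul] at hk'
      have h0 : ((3 : ℕ) : ℤ) • h = 0 := by rw [← hk']; exact hdis _ _ hk'
      have := addOrderOf_dvd_iff_zsmul_eq_zero.2 h0
      rw [hb] at this
      norm_num at this
    have h73 : addOrderOf g = 7 → addOrderOf h = 3 → False := fun ha hb =>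
      false_seven_three (hgo.symm.trans ha) (hb ▸ hhO)
    have h37 : addOrderOf g = 3 → addOrderOf h = 7 → False := fun ha hb =>
      false_seven_three (E := FA.Twists.quadTwist E d) (hho.symm.trans hb)
        ⟨e.symm g, by rw [AddEquiv.addOrderOf_eq, ha], hback⟩
    have hga : addOrderOf g ∈ ({1, 3, 5, 7, 9} : Finset ℕ) := hgo ▸ hR
    have hhb : addOrderOf h ∈ ({1, 3, 5, 7, 9} : Finset ℕ) := hho ▸ hR'
    simp only [Finset.mem_insert, Finset.mem_singleton] at hga hhb
    unfold Allowed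
    rcases hga with ha | ha | ha | ha | ha <;> rcases hhb with hb | hb | hb | hb | hb <;>
      first
      | omega
      | exact (h93 ha hb).elim
      | exact (h39 ha hb).elim
      | exact (h73 ha hb).elim
      | exact (h37 ha hb).elim
      | exact absurd (hsame ha hb (by norm_num)) (by decide)
      | exact absurd (hmem ha hb (by norm_num) fun q hq hd => by
          have := Nat.le_of_dvd (by norm_num) hd
          revert hq hd; interval_cases q <;> decide) (by decide)
  · obtain ⟨P₀, rfl⟩ := exists_toQb hP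
    rw [toQb_order] at ho
    obtain ⟨k, rfl⟩ := AddSubgroup.mem_zmultiples_iff.1 (hRgen P₀ ho)
    exact AddSubgroup.mem_zmultiples_iff.2 ⟨k, (map_zsmul _ _ _).symm⟩
  · obtain ⟨Q, rfl⟩ := e.surjective P
    obtain ⟨Q₀, rfl⟩ := exists_toQb (P := Q) fun σ => by
      refine e.injective ?_
      rcases sign_cases hs σ with hσ | hσ
      · exact ((hmove σ Q).1 hσ).symm.trans ((hP σ).1 hσ)
      · exact neg_injective (((hmove σ Q).2 hσ).symm.trans ((hP σ).2 hσ))
    rw [AddEquiv.addOrderOf_eq, toQb_order] at ho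
    obtain ⟨k, rfl⟩ := AddSubgroup.mem_zmultiples_iff.1 (hRgen' Q₀ ho)
    exact AddSubgroup.mem_zmultiples_iff.2 ⟨k, by rw [hhdef, map_zsmul, map_zsmul]⟩

end FA.QuadTorsion

end
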