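import Fermat.Agent.QuadTorsion.Parts
import Fermat.Agent.Torsion.Groups

/-!
# The sectors of odd torsion over multiquadratic fields

The sector of a square root `s` holds the points on which Galois acts by the sign of `s`. At most
two square classes have an odd torsion point in their sectors: three would give three stable lines
of order `3`, or a cyclic isogeny of degree `45`. By induction on the square roots the sectors span
the odd torsion of every multiquadratic field.
-/

set_option autoImplicit false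
set_option linter.style.haveILetI false
set_option linter.unusedSectionVars false

noncomputable section

open WeierstrassCurve FA.KerPoly FA.ClassBound
open scoped WeierstrassCurve.Affine

local notation "Qb" => AlgebraicClosure ℚ
local notation "GQ" => AlgebraicClosure ℚ ≃ₐ[ℚ] AlgebraicClosure ℚ

namespace FA.QuadTorsion

variable {E : WeierstrassCurve ℚ} [E.IsElliptic]

/-- A nonzero square root of a rational number. -/
structure SqrtRat (s : Qb) : Prop where
  ne_zero : s ≠ 0
  sq : ∃ d : ℚ, s ^ 2 = algebraMap ℚ Qb d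

open scoped Classical in
/-- The sign by which `σ` moves `s`. -/
def sgn (s : Qb) (σ : GQ) : ℤ := if σ s = s then 1 else -1

theorem sgn_eq_one_or (s : Qb) (σ : GQ) : sgn s σ = 1 ∨ sgn s σ = -1 := by
  unfold sgn; split_ifs <;> simp

theorem sgn_sq (s : Qb) (σ : GQ) : sgn s σ * sgn s σ = 1 := by
  rcases sgn_eq_one_or s σ with h | h <;> simp [h]

theorem sgn_of_eq {s : Qb} {σ : GQ} (h : σ s = s) : sgn s σ = 1 := if_pos h

theorem sgn_one (σ : GQ) : sgn 1 σ = 1 := sgn_of_eq (map_one σ)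

theorem SqrtRat.one : SqrtRat 1 := ⟨one_ne_zero, 1, by simp⟩

theorem SqrtRat.mul {s t : Qb} (hs : SqrtRat s) (ht : SqrtRat t) : SqrtRat (s * t) := by
  obtain ⟨a, ha⟩ := hs.sq
  obtain ⟨b, hb⟩ := ht.sq
  exact ⟨mul_ne_zero hs.ne_zero ht.ne_zero, a * b, by rw [mul_pow, ha, hb, map_mul]⟩

theorem SqrtRat.apply {s : Qb} (hs : SqrtRat s) (σ : GQ) : σ s = (sgn s σ : Qb) * s := by
  obtain ⟨d, hd⟩ := hs.sq
  rcases sign_cases hd σ with h | h
  · rw [sgn_of_eq h, Int.cast_one, one_mul, h]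
  · rw [sgn, if_neg (fun h' => hs.ne_zero (self_eq_neg.1 (h'.symm.trans h))), Int.cast_neg,
      Int.cast_one, neg_one_mul, h]

theorem sgn_neg {s : Qb} (hs : SqrtRat s) {σ : GQ} (h : σ s = -s) : sgn s σ = -1 :=
  if_neg fun h' => hs.ne_zero (self_eq_neg.1 (h'.symm.trans h))

theorem sgn_mul {s t : Qb} (hs : SqrtRat s) (ht : SqrtRat t) (σ : GQ) :
    sgn (s * t) σ = sgn s σ * sgn t σ := by
  have h := (hs.mul ht).apply σ
  rw [map_mul, hs.apply σ, ht.apply σ, mul_mul_mul_comm] at h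
  exact_mod_cast (mul_right_cancel₀ (mul_ne_zero hs.ne_zero ht.ne_zero) h).symm

theorem sgn_trans {s : Qb} (hs : SqrtRat s) (τ σ : GQ) :
    sgn s (τ.trans σ) = sgn s σ * sgn s τ := by
  have h := hs.apply (τ.trans σ)
  rw [AlgEquiv.trans_apply, hs.apply τ, map_mul, map_intCast, hs.apply σ, ← mul_assoc] at h
  rw [mul_comm (sgn s σ)]
  exact_mod_cast (mul_right_cancel₀ hs.ne_zero h).symm

theorem sgn_symm {s : Qb} (hs : SqrtRat s) (τ : GQ) : sgn s τ.symm = sgn s τ := by
  have h : sgn s (τ.symm.trans τ) = 1 := sgn_of_eq (by simp)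
  rw [sgn_trans hs] at h
  rcases sgn_eq_one_or s τ with a | a <;> rcases sgn_eq_one_or s τ.symm with b | b <;>
    simp [a, b] at h ⊢

/-- Galois acts by the sign of `s`. -/
def Sector (s : Qb) (P : (E.toAffine⁄Qb).Point) : Prop :=
  ∀ σ : GQ, Affine.Point.map σ.toAlgHom P = sgn s σ • P

theorem Sector.zsmul {s : Qb} {P : (E.toAffine⁄Qb).Point} (h : Sector s P) (k : ℤ) :
    Sector s (k • P) := fun σ => by rw [map_zsmul, h σ, zsmul_comm]

theorem Sector.congr {s t : Qb} (hst : ∀ σ, sgn s σ = sgn t σ) {P : (E.toAffine⁄Qb).Point}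
    (h : Sector s P) : Sector t P := fun σ => by rw [h σ, hst]

theorem Sector.signs {s : Qb} {P : (E.toAffine⁄Qb).Point} (h : Sector s P) (σ : GQ) :
    Affine.Point.map σ.toAlgHom P = P ∨ Affine.Point.map σ.toAlgHom P = -P := by
  rw [h σ]
  rcases sgn_eq_one_or s σ with e | e <;> simp [e]

/-- An odd point in two different sectors is zero. -/
theorem eq_zero_of_sectors {s t : Qb} {τ : GQ} (hτ : sgn s τ ≠ sgn t τ)
    {X : (E.toAffine⁄Qb).Point} (h1 : Sector s X) (h2 : Sector t X)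
    (hodd : Odd (addOrderOf X)) : X = 0 := by
  have h : 2 • X = 0 := by
    have e := (h1 τ).symm.trans (h2 τ)
    rcases sgn_eq_one_or s τ with a | a <;> rcases sgn_eq_one_or t τ with b | b <;>
      simp only [a, b, ne_eq, not_true_eq_false] at e hτ
    · rw [two_nsmul]; rw [one_zsmul, neg_one_zsmul] at e; exact eq_neg_iff_add_eq_zero.1 e
    · rw [two_nsmul]; rw [one_zsmul, neg_one_zsmul] at e; exact neg_eq_iff_add_eq_zero.1 e
  rcases (Nat.dvd_prime Nat.prime_two).1 (addOrderOf_dvd_of_nsmul_eq_zero h) with h1 | h1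
  · exact AddMonoid.addOrderOf_eq_one_iff.1 h1
  · rw [h1] at hodd; exact absurd hodd (by decide)

/-- Different sectors meet trivially in the odd torsion. -/
theorem disjoint_sectors {s t : Qb} {τ : GQ} (hτ : sgn s τ ≠ sgn t τ)
    {P Q : (E.toAffine⁄Qb).Point} (hP : Sector s P) (hQ : Sector t Q) (ho : Odd (addOrderOf P))
    (a b : ℤ) (hab : a • P = b • Q) : a • P = 0 :=
  eq_zero_of_sectors hτ (hP.zsmul a) (hab ▸ hQ.zsmul b) (ho.of_dvd_nat
    (addOrderOf_dvd_of_mem_zmultiples (AddSubgroup.zsmul_mem_zmultiples P a)))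

/-- The twist by the square of `s`, with Galois through the sign of `s`. -/
theorem exists_transfer (E : WeierstrassCurve ℚ) [E.IsElliptic] {s : Qb} (hs : SqrtRat s) {d : ℚ}
    (hd : s ^ 2 = algebraMap ℚ Qb d) :
    ∃ e : ((FA.Twists.quadTwist E d).toAffine⁄Qb).Point ≃+ (E.toAffine⁄Qb).Point,
      ∀ (σ : GQ) (Q : ((FA.Twists.quadTwist E d).toAffine⁄Qb).Point),
        Affine.Point.map (W' := E.toAffine) σ.toAlgHom (e Q) = sgn s σ • e (σ • Q) := by
  have hd0 : d ≠ 0 := fun h => hs.ne_zero (by simpa [h] using hd)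
  obtain ⟨s', e, hs', he⟩ := FA.Root.exists_twist_equiv_sqrt E hd0
  refine ⟨e, fun σ Q => ?_⟩
  have hss : ∀ c, σ s = c * s → σ s' = c * s' := fun c hc => by
    rcases sq_eq_sq_iff_eq_or_eq_neg.1 (show s' ^ 2 = s ^ 2 by rw [hd, hs']) with r | r <;>
      subst r <;> simp [map_neg, hc]
  have h := hss _ (hs.apply σ)
  rcases sgn_eq_one_or s σ with a | a <;> rw [a] at h ⊢
  · rw [one_zsmul]; exact (he σ Q).1 (by simpa using h)
  · rw [neg_one_zsmul]; exact (he σ Q).2 (by simpa using h)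

/-- A rational point of the twist by `s²` lies in the sector of `s`. -/
theorem sector_of_twist {s : Qb} {d : ℚ} [(FA.Twists.quadTwist E d).IsElliptic]
    {e : ((FA.Twists.quadTwist E d).toAffine⁄Qb).Point ≃+ (E.toAffine⁄Qb).Point}
    (he : ∀ (σ : GQ) Q, Affine.Point.map (W' := E.toAffine) σ.toAlgHom (e Q) =
      sgn s σ • e (σ • Q))
    (R : (FA.Twists.quadTwist E d).toAffine.Point) : Sector s (e (FA.Torsion.toQb _ R)) :=
  fun σ => by rw [he, FA.Torsion.toQb_fixed]

/-- The sector of `s` comes from the rational points of the twist by `s²`. -/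
theorem exists_twist_point {s : Qb} {d : ℚ} [(FA.Twists.quadTwist E d).IsElliptic]
    {e : ((FA.Twists.quadTwist E d).toAffine⁄Qb).Point ≃+ (E.toAffine⁄Qb).Point}
    (he : ∀ (σ : GQ) Q, Affine.Point.map (W' := E.toAffine) σ.toAlgHom (e Q) =
      sgn s σ • e (σ • Q))
    {P : (E.toAffine⁄Qb).Point} (hP : Sector s P) :
    ∃ R : (FA.Twists.quadTwist E d).toAffine.Point, e (FA.Torsion.toQb _ R) = P := by
  obtain ⟨Q, rfl⟩ := e.surjective P
  obtain ⟨R, rfl⟩ := exists_toQb (P := Q) fun σ => e.injective (by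
    have h := congrArg (fun X => sgn s σ • X) ((he σ Q).symm.trans (hP σ))
    simp only [← mul_zsmul, sgn_sq, one_zsmul] at h
    exact h)
  exact ⟨R, rfl⟩

/-- The points of one sector with odd order form a cyclic group of order `1, 3, 5, 7` or `9`. -/
theorem exists_sectorGen (E : WeierstrassCurve ℚ) [E.IsElliptic] {s : Qb} (hs : SqrtRat s) :
    ∃ g : (E.toAffine⁄Qb).Point, Sector s g ∧
      addOrderOf g ∈ ({1, 3, 5, 7, 9} : Finset ℕ) ∧
      ∀ P : (E.toAffine⁄Qb).Point, Sector s P → Odd (addOrderOf P) →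
        P ∈ AddSubgroup.zmultiples g := by
  obtain ⟨d, hd⟩ := hs.sq
  haveI := FA.Root.quadTwist_isElliptic E (d := d)
    (fun h => hs.ne_zero (by simpa [h] using hd))
  obtain ⟨e, he⟩ := exists_transfer E hs hd
  obtain ⟨R, hR, hgen⟩ := exists_oddGen (FA.Twists.quadTwist E d)
  refine ⟨e (FA.Torsion.toQb _ R), sector_of_twist he R,
    by rwa [AddEquiv.addOrderOf_eq, toQb_order], fun P hP ho => ?_⟩
  obtain ⟨R₀, rfl⟩ := exists_twist_point he hP
  rw [AddEquiv.addOrderOf_eq, toQb_order] at ho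
  obtain ⟨k, rfl⟩ := AddSubgroup.mem_zmultiples_iff.1 (hgen R₀ ho)
  exact AddSubgroup.mem_zmultiples_iff.2 ⟨k, by rw [map_zsmul, map_zsmul]⟩

/-- **Two sectors**: the orders of their odd points are an allowed pair. -/
theorem allowed_of_sectors {s t : Qb} (hs : SqrtRat s) (ht : SqrtRat t) {τ : GQ}
    (hτ : sgn s τ ≠ sgn t τ) {P Q : (E.toAffine⁄Qb).Point} (hP : Sector s P) (hQ : Sector t Q)
    (hPo : Odd (addOrderOf P)) (hQo : Odd (addOrderOf Q)) :
    Allowed (addOrderOf P) (addOrderOf Q) := by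
  obtain ⟨d, hd⟩ := hs.sq
  obtain ⟨d', hd'⟩ := (hs.mul ht).sq
  have hd0 : d' ≠ 0 := fun h => (hs.mul ht).ne_zero (by simpa [h] using hd')
  haveI := FA.Root.quadTwist_isElliptic E (d := d) (fun h => hs.ne_zero (by simpa [h] using hd))
  obtain ⟨e, he⟩ := exists_transfer E hs hd
  obtain ⟨R, rfl⟩ := exists_twist_point he hP
  obtain ⟨Q', rfl⟩ := e.surjective Q
  have hQ' : InMinus (s * t) Q' := fun σ => by
    have h := congrArg (fun X => sgn s σ • X) ((he σ Q').symm.trans (hQ σ))
    simp only [← mul_zsmul, sgn_sq, one_zsmul, ← sgn_mul hs ht, ← map_zsmul] at h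
    have h' := e.injective h
    refine ⟨fun hσ => ?_, fun hσ => ?_⟩
    · rw [sgn_of_eq hσ, one_zsmul] at h'; exact h'
    · rw [sgn_neg (hs.mul ht) hσ, neg_one_zsmul] at h'; exact h'
  have hflip : τ (s * t) = -(s * t) := by
    rw [(hs.mul ht).apply τ, sgn_mul hs ht]
    rcases sgn_eq_one_or s τ with a | a <;> rcases sgn_eq_one_or t τ with b | b <;>
      simp [a, b] at hτ ⊢
  obtain ⟨g, h, -, -, -, -, hall, hgen, hgen', -⟩ :=
    exists_generators (FA.Twists.quadTwist E d) hd0 hd' hflip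
  simp only [AddEquiv.addOrderOf_eq] at hPo hQo ⊢
  have h1 := addOrderOf_dvd_of_mem_zmultiples
    (hgen _ (fun σ => map_toQb σ R) hPo)
  have h2 := addOrderOf_dvd_of_mem_zmultiples (hgen' _ hQ' hQo)
  have h3 : Nat.Prime 3 := Nat.prime_three
  have h5 : Nat.Prime 5 := Nat.prime_five
  unfold Allowed at hall ⊢
  rcases hall with a | a | ⟨a, b⟩ | ⟨a, b⟩ | ⟨a, b⟩
  · exact Or.inl (Nat.dvd_one.1 (a ▸ h1))
  · exact Or.inr (Or.inl (Nat.dvd_one.1 (a ▸ h2)))
  all_goals
    rw [a] at h1; rw [b] at h2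
    rcases (Nat.dvd_prime (by norm_num)).1 h1 with e1 | e1 <;>
      rcases (Nat.dvd_prime (by norm_num)).1 h2 with e2 | e2 <;>
      first
      | exact Or.inl e1
      | exact Or.inr (Or.inl e2)
      | exact Or.inr (Or.inr (Or.inl ⟨e1, e2⟩))
      | exact Or.inr (Or.inr (Or.inr (Or.inl ⟨e1, e2⟩)))
      | exact Or.inr (Or.inr (Or.inr (Or.inr ⟨e1, e2⟩)))

/-- No two stable lines of order `3` beside a third of order `5`. -/
theorem false_three_three_five {P P' Q : (E.toAffine⁄Qb).Point} (hP : addOrderOf P = 3)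
    (hP' : addOrderOf P' = 3) (hQ : addOrderOf Q = 5) (sP : Stab P) (sP' : Stab P')
    (sQ : Stab Q) (hout : P ∉ AddSubgroup.zmultiples P') : False := by
  obtain ⟨E', hE', θ, hθ⟩ := exists_quot sP' (by rw [hP']; norm_num)
  have hp := Nat.prime_three
  have hl : addOrderOf P' = 3 ^ 1 := by rw [pow_one, hP']
  have hh : addOrderOf P = 3 ^ 1 := by rw [pow_one, hP]
  obtain ⟨X, hX, htop⟩ := exists_lift hp le_rfl hl hh (fun _ => by simpa using hout)
  obtain ⟨hord, hstab, -⟩ := hθ.lift hp le_rfl hl hh sP hX htop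
  have hQ0 : Q ≠ 0 := fun h => by rw [h, addOrderOf_zero] at hQ; omega
  have hθQ : addOrderOf (θ Q) = 5 := by
    haveI : Fact (Nat.Prime 5) := ⟨Nat.prime_five⟩
    refine addOrderOf_eq_prime (by rw [← map_nsmul, ← hQ, addOrderOf_nsmul_eq_zero, map_zero])
      fun h0 => ?_
    have := addOrderOf_dvd_of_mem_zmultiples ((hθ.ker Q).1 h0)
    rw [hQ, hP'] at this
    norm_num at this
  have h45 : HasStableOrder E' (9 * 5) := HasStableOrder.mul (by norm_num)
    ⟨θ X, hord.trans (by norm_num), hstab⟩ ⟨θ Q, hθQ, hθ.stab sQ⟩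
  refine absurd (mem_degreeList h45 (by norm_num) fun q hq hd => ?_) (by decide)
  have := Nat.le_of_dvd (by norm_num) hd
  revert hq hd; interval_cases q <;> decide

/-- **No three sectors** with odd points. -/
theorem false_of_three_sectors {s : Fin 3 → Qb} (hs : ∀ i, SqrtRat (s i))
    (hne : ∀ i j, i ≠ j → ∃ τ : GQ, sgn (s i) τ ≠ sgn (s j) τ)
    {P : Fin 3 → (E.toAffine⁄Qb).Point} (hP : ∀ i, Sector (s i) (P i))
    (ho : ∀ i, Odd (addOrderOf (P i))) (h0 : ∀ i, P i ≠ 0) : False := by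
  have hst : ∀ i, Stab (P i) := fun i => stab_of_signs (hP i).signs
  have hd : ∀ i j, i ≠ j → ∀ a b : ℤ, a • P i = b • P j → a • P i = 0 := fun i j hij => by
    obtain ⟨τ, hτ⟩ := hne i j hij
    exact disjoint_sectors hτ (hP i) (hP j) (ho i)
  have hout : ∀ i j, i ≠ j → P i ∉ AddSubgroup.zmultiples (P j) := fun i j hij hin => by
    obtain ⟨b, hb⟩ := AddSubgroup.mem_zmultiples_iff.1 hin
    exact h0 i (by simpa using hd i j hij 1 b (by rw [one_zsmul, hb]))
  have h1 : ∀ i, addOrderOf (P i) ≠ 1 := fun i h => h0 i (AddMonoid.addOrderOf_eq_one_iff.1 h)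
  have hA : ∀ i j, i ≠ j → Allowed (addOrderOf (P i)) (addOrderOf (P j)) := fun i j hij => by
    obtain ⟨τ, hτ⟩ := hne i j hij
    exact allowed_of_sectors (hs i) (hs j) hτ (hP i) (hP j) (ho i) (ho j)
  have a := h1 0
  have b := h1 1
  have c := h1 2
  have ab := hA 0 1 (by decide)
  have ac := hA 0 2 (by decide)
  have bc := hA 1 2 (by decide)
  unfold Allowed at ab ac bc
  rcases (show addOrderOf (P 0) = 3 ∧ addOrderOf (P 1) = 3 ∧ addOrderOf (P 2) = 3 ∨
      addOrderOf (P 0) = 3 ∧ addOrderOf (P 1) = 3 ∧ addOrderOf (P 2) = 5 ∨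
      addOrderOf (P 0) = 3 ∧ addOrderOf (P 1) = 5 ∧ addOrderOf (P 2) = 3 ∨
      addOrderOf (P 0) = 5 ∧ addOrderOf (P 1) = 3 ∧ addOrderOf (P 2) = 3 by omega) with
    ⟨x, y, z⟩ | ⟨x, y, z⟩ | ⟨x, y, z⟩ | ⟨x, y, z⟩
  · exact FA.ClassBound.false_of_three (n := 3) (g := P) (by norm_num)
      (fun i => by fin_cases i <;> assumption) hst hd (u := 2) (by norm_num) (by decide)
  · exact false_three_three_five x y z (hst 0) (hst 1) (hst 2) (hout 0 1 (by decide))
  · exact false_three_three_five x z y (hst 0) (hst 2) (hst 1) (hout 0 2 (by decide))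
  · exact false_three_three_five y z x (hst 1) (hst 2) (hst 0) (hout 1 2 (by decide))

theorem map_map_gal' {σ τ : GQ} {P : (E.toAffine⁄Qb).Point} :
    Affine.Point.map σ.toAlgHom (Affine.Point.map τ.toAlgHom P) =
      Affine.Point.map (τ.trans σ).toAlgHom P := by
  rw [Affine.Point.map_map]; rfl

/-- **The sectors span**: a point of odd order on which the automorphisms fixing all of `L` act by
the sign of `c` is a sum of points of odd order in sectors of products of `L` with `c`. -/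
theorem mem_closure_sectors {L : Finset Qb} (hL : ∀ s ∈ L, SqrtRat s) :
    ∀ (c : Qb), SqrtRat c → ∀ (P : (E.toAffine⁄Qb).Point), Odd (addOrderOf P) →
      (∀ σ : GQ, (∀ s ∈ L, σ s = s) → Affine.Point.map σ.toAlgHom P = sgn c σ • P) →
      P ∈ AddSubgroup.closure {Q | Odd (addOrderOf Q) ∧ ∃ t, SqrtRat t ∧ Sector t Q} := by
  classical
  induction L using Finset.induction with
  | empty =>
    intro c hc P ho h
    exact AddSubgroup.subset_closure ⟨ho, c, hc, fun σ => h σ (by simp)⟩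
  | @insert a L _ ih =>
    intro c hc P ho h
    have ha : SqrtRat a := hL a (Finset.mem_insert_self a L)
    have hL' : ∀ s ∈ L, SqrtRat s := fun s hs => hL s (Finset.mem_insert_of_mem hs)
    have hfix : ∀ σ : GQ, (∀ s ∈ L, σ s = s) → σ a = a →
        Affine.Point.map σ.toAlgHom P = sgn c σ • P := fun σ h1 h2 => h σ fun s hs => by
      rcases Finset.mem_insert.1 hs with rfl | hs
      · exact h2
      · exact h1 s hs
    have hneg : ∀ σ : GQ, σ a ≠ a → σ a = -a := fun σ hσ => by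
      obtain ⟨d, hd⟩ := ha.sq
      exact (sign_cases hd σ).resolve_left hσ
    by_cases hτ : ∃ τ : GQ, (∀ s ∈ L, τ s = s) ∧ τ a ≠ a
    swap
    · push Not at hτ
      exact ih hL' _ hc _ ho fun σ hσ => hfix σ hσ (hτ σ hσ)
    obtain ⟨τ, hτL, hτa⟩ := hτ
    have hτn := hneg τ hτa
    set Z := Affine.Point.map τ.toAlgHom P with hZ
    set ε := sgn c τ with hε
    have hsymL : ∀ s ∈ L, τ.symm s = s := fun s hs => (τ.symm_apply_eq).2 (hτL s hs).symm
    have key : ∀ σ : GQ, (∀ s ∈ L, σ s = s) →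
        (σ a = a → Affine.Point.map σ.toAlgHom P = sgn c σ • P ∧
          Affine.Point.map σ.toAlgHom Z = sgn c σ • Z) ∧
        (σ a = -a → Affine.Point.map σ.toAlgHom P = (sgn c σ * ε) • Z ∧
          Affine.Point.map σ.toAlgHom Z = (sgn c σ * ε) • P) := fun σ hσ => by
      refine ⟨fun hσa => ⟨hfix σ hσ hσa, ?_⟩, fun hσa => ⟨?_, ?_⟩⟩
      · -- conjugate by `τ`
        have hρ := hfix ((τ.trans σ).trans τ.symm)
          (fun s hs => by simp [hτL s hs, hσ s hs, hsymL s hs])
          (by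
            rw [AlgEquiv.trans_apply, AlgEquiv.trans_apply, hτn, map_neg, hσa, ← hτn,
              AlgEquiv.symm_apply_apply])
        rw [sgn_trans hc, sgn_trans hc, sgn_symm hc] at hρ
        have hρ' := congrArg (Affine.Point.map τ.toAlgHom) hρ
        rw [map_zsmul, ← hZ, map_map_gal'] at hρ'
        rw [hZ, map_map_gal', show τ.trans σ = ((τ.trans σ).trans τ.symm).trans τ from
          AlgEquiv.ext fun z => by simp, ← hZ, hρ', mul_left_comm, sgn_sq, mul_one]
      · have hρ := hfix (σ.trans τ.symm) (fun s hs => by simp [hσ s hs, hsymL s hs])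
          (by rw [AlgEquiv.trans_apply, hσa, ← hτn, AlgEquiv.symm_apply_apply])
        rw [sgn_trans hc, sgn_symm hc] at hρ
        have hρ' := congrArg (Affine.Point.map τ.toAlgHom) hρ
        rw [map_zsmul, ← hZ, map_map_gal',
          show (σ.trans τ.symm).trans τ = σ from AlgEquiv.ext fun z => by simp] at hρ'
        rw [hρ', mul_comm]
      · rw [hZ, map_map_gal', hfix (τ.trans σ) (fun s hs => by simp [hτL s hs, hσ s hs])
          (by simp [hτn, hσa]), sgn_trans hc]
    have hZ0 : addOrderOf P • Z = 0 := by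
      rw [hZ, ← map_nsmul, addOrderOf_nsmul_eq_zero, map_zero]
    have hεε : ε * ε = 1 := sgn_sq c τ
    have hP1 : P + ε • Z ∈
        AddSubgroup.closure {Q | Odd (addOrderOf Q) ∧ ∃ t, SqrtRat t ∧ Sector t Q} :=
      ih hL' _ hc _ (ho.of_dvd_nat (addOrderOf_dvd_of_nsmul_eq_zero (by
        rw [nsmul_add, addOrderOf_nsmul_eq_zero, smul_comm, hZ0, zsmul_zero, add_zero])))
        fun σ hσ => by
          rw [map_add, map_zsmul]
          by_cases hσa : σ a = a
          · obtain ⟨e1, e2⟩ := (key σ hσ).1 hσa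
            rw [e1, e2, zsmul_add, zsmul_comm]
          · obtain ⟨e1, e2⟩ := (key σ hσ).2 (hneg σ hσa)
            rw [e1, e2, zsmul_add, ← mul_zsmul, ← mul_zsmul,
              show ε * (sgn c σ * ε) = sgn c σ by linear_combination sgn c σ * hεε, add_comm]
    have hP2 : P - ε • Z ∈
        AddSubgroup.closure {Q | Odd (addOrderOf Q) ∧ ∃ t, SqrtRat t ∧ Sector t Q} :=
      ih hL' _ (hc.mul ha) _ (ho.of_dvd_nat (addOrderOf_dvd_of_nsmul_eq_zero (by
        rw [nsmul_sub, addOrderOf_nsmul_eq_zero, smul_comm, hZ0, zsmul_zero, sub_zero])))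
        fun σ hσ => by
          rw [map_sub, map_zsmul, sgn_mul hc ha]
          by_cases hσa : σ a = a
          · obtain ⟨e1, e2⟩ := (key σ hσ).1 hσa
            rw [e1, e2, sgn_of_eq hσa, mul_one, zsmul_sub, zsmul_comm]
          · obtain ⟨e1, e2⟩ := (key σ hσ).2 (hneg σ hσa)
            rw [e1, e2, sgn_neg ha (hneg σ hσa), zsmul_sub, ← mul_zsmul, ← mul_zsmul,
              show ε * (sgn c σ * ε) = sgn c σ by linear_combination sgn c σ * hεε, mul_neg,
              mul_one]
            simp only [neg_mul, neg_zsmul]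
            abel
    obtain ⟨k, hk⟩ := ho
    have h2 := nsmul_mem (add_mem hP1 hP2) (k + 1)
    rwa [show (P + ε • Z) + (P - ε • Z) = 2 • P by rw [two_nsmul]; abel, ← mul_nsmul',
      show (k + 1) * 2 = addOrderOf P + 1 by omega, succ_nsmul, addOrderOf_nsmul_eq_zero,
      zero_add] at h2

end FA.QuadTorsion

end
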